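import Fermat.Agent.S59.TW.H95.AlgSpan

/-!
# S59 / cell TW / Layer 2, leaf ALG — part 2: basis transfer and folding (helper95, Mathlib only)

* `exists_basis_w_h95` : if `V` has an `𝒪`-basis `BX (i, e)` (`e ∈ ∏ Fin (q j)`) with
  `BX (i, e) - b i ∈ ∑_j (w_j - 1) V`, and `w_j^(q_j) = 1`, `(w_j - 1)^(k_j) ∈ ϖ T`, `ϖ ∈ Jac 𝒪`,
  then the `∏ w_j^(e_j) • b i` form an `𝒪`-basis of `V` as well.
* `fold_exists_h95`, `fold_unique_h95` : for `N ∣ q_j`, the `∏ w_j^(a_j) • b i`, `a_j < N`, form an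
  `𝒪`-basis of `V / (w_j^N - 1 : j) V`.
-/

set_option autoImplicit false

namespace Fermat.Agent.S59.TW.H95

open Finset

section Basis

variable {𝒪 T V : Type*} [CommRing 𝒪] [CommRing T] [Algebra 𝒪 T]
  [AddCommGroup V] [Module T V] [Module 𝒪 V] [IsScalarTower 𝒪 T V]
  {r d : ℕ}

/-- reduction of exponents -/
theorem prod_pow_mod_h95 (w : Fin r → T) (q : Fin r → ℕ) (hw : ∀ j, w j ^ q j = 1)
    (a : Fin r → ℕ) : ∏ j, w j ^ a j = ∏ j, w j ^ (a j % q j) :=
  Finset.prod_congr rfl fun j _ => pow_eq_pow_mod _ (hw j)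

/-- **Basis transfer.** -/
theorem exists_basis_w_h95 (ϖ : 𝒪) (hϖ : ϖ ∈ Ideal.jacobson (⊥ : Ideal 𝒪))
    (w : Fin r → T) (q k : Fin r → ℕ) (hq : ∀ j, 0 < q j) (hw : ∀ j, w j ^ q j = 1)
    (hk : ∀ j, ∃ t : T, (w j - 1) ^ k j = algebraMap 𝒪 T ϖ * t)
    (b : Fin d → V) (BX : Module.Basis (Fin d × (∀ j : Fin r, Fin (q j))) 𝒪 V)
    (hBX : ∀ x, BX x - b x.1 ∈ ⨆ j, LinearMap.range (mulT95 𝒪 V (w j - 1))) :
    ∃ BW : Module.Basis (Fin d × (∀ j : Fin r, Fin (q j))) 𝒪 V,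
      ∀ x, BW x = (∏ j, w j ^ (x.2 j : ℕ)) • b x.1 := by
  classical
  have : Module.Finite 𝒪 V := Module.Finite.of_basis BX
  set S : Submodule 𝒪 V := ⨆ j, LinearMap.range (mulT95 𝒪 V (w j - 1)) with hS
  set W₀ : Submodule 𝒪 V :=
    Submodule.span 𝒪 {y | ∃ (a : Fin r → ℕ) (i : Fin d), y = (∏ j, w j ^ a j) • b i} with hW₀
  -- stability
  have hstab : ∀ j, ∀ v ∈ W₀, w j • v ∈ W₀ := by
    intro j v hv
    have hmap : W₀.map (mulT95 𝒪 V (w j)) ≤ W₀ := by
      rw [hW₀, Submodule.map_span]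
      refine Submodule.span_le.mpr ?_
      rintro _ ⟨_, ⟨a, i, rfl⟩, rfl⟩
      refine Submodule.subset_span ⟨a + Pi.single j 1, i, ?_⟩
      rw [mulT95_apply, ← mul_smul]
      congr 1
      have : ∀ l, w l ^ ((a + Pi.single j 1 : Fin r → ℕ) l) =
          w l ^ a l * w l ^ (Pi.single j 1 : Fin r → ℕ) l := by
        intro l; rw [Pi.add_apply, pow_add]
      simp_rw [this, Finset.prod_mul_distrib]
      rw [mul_comm]
      congr 1
      rw [Finset.prod_eq_single j]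
      · simp
      · intro l _ hlj; simp [hlj]
      · intro h; exact absurd (Finset.mem_univ j) h
    exact hmap (Submodule.mem_map_of_mem hv)
  -- generation
  have hb0 : ∀ i, b i ∈ W₀ := fun i =>
    Submodule.subset_span ⟨fun _ => 0, i, by simp⟩
  have hgen : ⊤ ≤ W₀ ⊔ S := by
    intro v _
    rw [← BX.sum_repr v]
    refine Submodule.sum_mem _ fun x _ => Submodule.smul_mem _ _ ?_
    have : BX x = b x.1 + (BX x - b x.1) := by abel
    rw [this]
    exact Submodule.add_mem _ (Submodule.mem_sup_left (hb0 _)) (Submodule.mem_sup_right (hBX x))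
  have htop : W₀ = ⊤ := eq_top_of_stable_h95 ϖ hϖ w k hk W₀ hstab hgen
  -- the family `vW`
  set vW : Fin d × (∀ j : Fin r, Fin (q j)) → V :=
    fun x => (∏ j, w j ^ (x.2 j : ℕ)) • b x.1 with hvW
  have hspan : Submodule.span 𝒪 (Set.range vW) = ⊤ := by
    rw [eq_top_iff, ← htop, hW₀]
    refine Submodule.span_le.mpr ?_
    rintro _ ⟨a, i, rfl⟩
    refine Submodule.subset_span ⟨(i, fun j => ⟨a j % q j, Nat.mod_lt _ (hq j)⟩), ?_⟩
    simp only [hvW]
    rw [prod_pow_mod_h95 w q hw a]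
  -- Orzech
  set h : V →ₗ[𝒪] V := BX.constr 𝒪 vW with hh
  have hsurj : Function.Surjective h := by
    rw [← LinearMap.range_eq_top, hh, Module.Basis.constr_range, hspan]
  have hbij : Function.Bijective h := OrzechProperty.bijective_of_surjective_endomorphism h hsurj
  refine ⟨BX.map (LinearEquiv.ofBijective h hbij), fun x => ?_⟩
  rw [Module.Basis.map_apply, LinearEquiv.ofBijective_apply, hh, Module.Basis.constr_basis]

end Basis

section Fold

variable {𝒪 T V : Type*} [CommRing 𝒪] [CommRing T] [Algebra 𝒪 T]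
  [AddCommGroup V] [Module T V] [Module 𝒪 V] [IsScalarTower 𝒪 T V]
  {r d : ℕ}

/-- the folding map on exponents -/
def fold95 {q : Fin r → ℕ} (N : ℕ) (hN : 0 < N) (e : ∀ j : Fin r, Fin (q j)) : Fin r → Fin N :=
  fun j => ⟨(e j : ℕ) % N, Nat.mod_lt _ hN⟩

/-- `∏ w_j^(e_j) ≡ ∏ w_j^(e_j mod N)` modulo `(w_j^N - 1)`. -/
theorem prod_pow_sub_prod_pow_mod_mem_h95 (w : Fin r → T) (N : ℕ) (a : Fin r → ℕ) :
    ∏ j, w j ^ a j - ∏ j, w j ^ (a j % N) ∈ Ideal.span (Set.range fun i => w i ^ N - 1) := by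
  rw [← Ideal.Quotient.eq, map_prod, map_prod]
  refine Finset.prod_congr rfl fun j _ => ?_
  rw [map_pow, map_pow]
  refine pow_eq_pow_mod _ ?_
  rw [← map_pow, ← map_one (Ideal.Quotient.mk _), Ideal.Quotient.eq]
  exact Ideal.subset_span ⟨j, rfl⟩

/-- **Folding, existence.** -/
theorem fold_exists_h95 (w : Fin r → T) (q : Fin r → ℕ) (N : ℕ) (hN : 0 < N)
    (b : Fin d → V) (BW : Module.Basis (Fin d × (∀ j : Fin r, Fin (q j))) 𝒪 V)
    (hBW : ∀ x, BW x = (∏ j, w j ^ (x.2 j : ℕ)) • b x.1) (x : V) :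
    ∃ c : Fin d → (Fin r → Fin N) → 𝒪,
      x - ∑ j, ∑ a, (algebraMap 𝒪 T (c j a) * ∏ i, w i ^ (a i : ℕ)) • b j ∈
        Ideal.span (Set.range fun i => w i ^ N - 1) • (⊤ : Submodule T V) := by
  classical
  refine ⟨fun j a => ∑ e : (∀ j : Fin r, Fin (q j)),
    if fold95 N hN e = a then BW.repr x (j, e) else 0, ?_⟩
  -- rewrite the folded sum
  have h1 : ∀ j : Fin d, ∑ a : Fin r → Fin N,
      (algebraMap 𝒪 T (∑ e : (∀ j : Fin r, Fin (q j)),
        if fold95 N hN e = a then BW.repr x (j, e) else 0) * ∏ i, w i ^ (a i : ℕ)) • b j =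
      ∑ e : (∀ j : Fin r, Fin (q j)),
        (algebraMap 𝒪 T (BW.repr x (j, e)) * ∏ i, w i ^ ((e i : ℕ) % N)) • b j := by
    intro j
    simp_rw [map_sum, Finset.sum_mul, Finset.sum_smul]
    rw [Finset.sum_comm]
    refine Finset.sum_congr rfl fun e _ => ?_
    rw [Finset.sum_eq_single (fold95 N hN e)]
    · rw [if_pos rfl]; rfl
    · intro a _ ha
      rw [if_neg (Ne.symm ha), map_zero, zero_mul, zero_smul]
    · intro h; exact absurd (Finset.mem_univ _) h
  have h2 : x = ∑ j : Fin d, ∑ e : (∀ j : Fin r, Fin (q j)),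
      (algebraMap 𝒪 T (BW.repr x (j, e)) * ∏ i, w i ^ (e i : ℕ)) • b j := by
    conv_lhs => rw [← BW.sum_repr x]
    rw [Fintype.sum_prod_type]
    refine Finset.sum_congr rfl fun j _ => Finset.sum_congr rfl fun e _ => ?_
    rw [hBW, mul_smul, algebraMap_smul]
  simp_rw [h1]
  have h3 : x - ∑ j : Fin d, ∑ e : (∀ j : Fin r, Fin (q j)),
      (algebraMap 𝒪 T (BW.repr x (j, e)) * ∏ i, w i ^ ((e i : ℕ) % N)) • b j =
      (∑ j : Fin d, ∑ e : (∀ j : Fin r, Fin (q j)),
        (algebraMap 𝒪 T (BW.repr x (j, e)) * ∏ i, w i ^ (e i : ℕ)) • b j) -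
      ∑ j : Fin d, ∑ e : (∀ j : Fin r, Fin (q j)),
      (algebraMap 𝒪 T (BW.repr x (j, e)) * ∏ i, w i ^ ((e i : ℕ) % N)) • b j := by
    rw [← h2]
  rw [h3, ← Finset.sum_sub_distrib]
  refine Submodule.sum_mem _ fun j _ => ?_
  rw [← Finset.sum_sub_distrib]
  refine Submodule.sum_mem _ fun e _ => ?_
  rw [← sub_smul, ← mul_sub]
  refine Submodule.smul_mem_smul (Ideal.mul_mem_left _ _ ?_) Submodule.mem_top
  exact prod_pow_sub_prod_pow_mod_mem_h95 w N (fun i => (e i : ℕ))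

/-- **Folding, uniqueness.** -/
theorem fold_unique_h95 (w : Fin r → T) (q : Fin r → ℕ) (hq : ∀ j, 0 < q j)
    (hw : ∀ j, w j ^ q j = 1) (N : ℕ) (hN : 0 < N) (hNq : ∀ j, N ∣ q j)
    (b : Fin d → V) (BW : Module.Basis (Fin d × (∀ j : Fin r, Fin (q j))) 𝒪 V)
    (hBW : ∀ x, BW x = (∏ j, w j ^ (x.2 j : ℕ)) • b x.1)
    (c : Fin d → (Fin r → Fin N) → 𝒪)
    (hc : ∑ j, ∑ a, (algebraMap 𝒪 T (c j a) * ∏ i, w i ^ (a i : ℕ)) • b j ∈
        Ideal.span (Set.range fun i => w i ^ N - 1) • (⊤ : Submodule T V)) :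
    ∀ j a, c j a = 0 := by
  classical
  -- the folding functional
  set Φ : V →ₗ[𝒪] (Fin d × (Fin r → Fin N) → 𝒪) :=
    BW.constr 𝒪 (fun y => Pi.single (y.1, fold95 N hN y.2) (1 : 𝒪)) with hΦ
  have hΦB : ∀ y, Φ (BW y) = Pi.single (y.1, fold95 N hN y.2) (1 : 𝒪) := fun y => by
    rw [hΦ, Module.Basis.constr_basis]
  -- invariance under `w_i^N`
  have hinv : ∀ (i : Fin r) (v : V), Φ (w i ^ N • v) = Φ v := by
    intro i
    have : Φ ∘ₗ mulT95 𝒪 V (w i ^ N) = Φ := by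
      refine BW.ext fun y => ?_
      rw [LinearMap.comp_apply, mulT95_apply, hΦB]
      -- `w_i^N • BW y = BW y'`
      set e' : ∀ j : Fin r, Fin (q j) :=
        fun j => ⟨((y.2 j : ℕ) + if j = i then N else 0) % q j, Nat.mod_lt _ (hq j)⟩ with he'
      have hy' : w i ^ N • BW y = BW (y.1, e') := by
        rw [hBW, hBW, ← mul_smul]
        congr 1
        have h1 : w i ^ N = ∏ j, w j ^ (if j = i then N else 0) := by
          rw [Finset.prod_eq_single i]
          · simp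
          · intro j _ hji; simp [hji]
          · intro h; exact absurd (Finset.mem_univ i) h
        rw [h1, ← Finset.prod_mul_distrib]
        refine Finset.prod_congr rfl fun j _ => ?_
        rw [← pow_add, add_comm]
        exact pow_eq_pow_mod _ (hw j)
      rw [hy', hΦB]
      congr 1
      refine Prod.ext rfl ?_
      funext j
      refine Fin.ext ?_
      simp only [fold95, he']
      rw [Nat.mod_mod_of_dvd _ (hNq j)]
      split_ifs with hji
      · rw [Nat.add_mod_right]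
      · rw [Nat.add_zero]
    intro v
    have := congrArg (fun f => f v) this
    simpa using this
  -- `Φ` kills `J V`
  have hkill : ∀ v ∈ Ideal.span (Set.range fun i => w i ^ N - 1) • (⊤ : Submodule T V),
      Φ v = 0 := by
    have haux : ∀ t ∈ Ideal.span (Set.range fun i => w i ^ N - 1), ∀ u : V, Φ (t • u) = 0 := by
      intro t ht
      refine Submodule.span_induction (p := fun t _ => ∀ u : V, Φ (t • u) = 0) ?_ ?_ ?_ ?_ ht
      · rintro _ ⟨i, rfl⟩ u
        rw [sub_smul, one_smul, map_sub, hinv, sub_self]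
      · intro u; rw [zero_smul, map_zero]
      · intro t₁ t₂ _ _ h₁ h₂ u
        rw [add_smul, map_add, h₁, h₂, add_zero]
      · intro s t₁ _ h₁ u
        rw [smul_eq_mul, mul_comm, mul_smul]
        exact h₁ _
    intro v hv
    refine Submodule.smul_induction_on hv ?_ ?_
    · intro t ht u _
      exact haux t ht u
    · intro u₁ u₂ h₁ h₂
      rw [map_add, h₁, h₂, add_zero]
  -- evaluate
  have hN_le : ∀ j, N ≤ q j := fun j => Nat.le_of_dvd (hq j) (hNq j)
  have hterm : ∀ (j : Fin d) (a : Fin r → Fin N),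
      Φ ((algebraMap 𝒪 T (c j a) * ∏ i, w i ^ (a i : ℕ)) • b j) =
        c j a • Pi.single (j, a) (1 : 𝒪) := by
    intro j a
    have hlift : (∏ i, w i ^ (a i : ℕ)) • b j =
        BW (j, fun i => ⟨(a i : ℕ), lt_of_lt_of_le (a i).2 (hN_le i)⟩) := by
      rw [hBW]
    rw [mul_smul, algebraMap_smul, map_smul, hlift, hΦB]
    congr 2
    refine Prod.ext rfl ?_
    funext i
    refine Fin.ext ?_
    simp only [fold95]
    exact Nat.mod_eq_of_lt (a i).2
  intro j₀ a₀
  have h0 := hkill _ hc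
  rw [map_sum] at h0
  simp_rw [map_sum, hterm] at h0
  have h1 := congrFun h0 (j₀, a₀)
  simp only [Finset.sum_apply, Pi.smul_apply, Pi.zero_apply, smul_eq_mul] at h1
  rw [Finset.sum_eq_single j₀, Finset.sum_eq_single a₀] at h1
  · simpa using h1
  · intro a _ ha
    rw [Pi.single_apply, if_neg, mul_zero]
    intro h
    exact ha (Prod.mk.inj h).2.symm
  · intro h; exact absurd (Finset.mem_univ _) h
  · intro j _ hj
    refine Finset.sum_eq_zero fun a _ => ?_
    rw [Pi.single_apply, if_neg, mul_zero]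
    intro h
    exact hj (Prod.mk.inj h).1.symm
  · intro h; exact absurd (Finset.mem_univ _) h

end Fold

end Fermat.Agent.S59.TW.H95
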