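import Fermat.Agent.S59.TW.Spec
import Fermat.Agent.S59.TW.H95.AlgBasis

/-!
# S59 / cell TW / Layer 2, leaf ALG (helper95)

`theorem alg : Fermat.Agent.S59.TW.AlgStatement` — VERBATIM, unconditional.

Proof.  `V` is `𝒪`-free on the `dia (g^e) b_i`.  By `hrange`, `∑_j (w_j - 1) V = ∑_j (X_j - 1) V`
(`X_j = dia g_j`), so `V = ∑ 𝒪 b_i + ∑_j (w_j - 1) V`.  As `(w_j - 1)^(p^(m_j)) ∈ p T` and
`p ∈ Jac 𝒪`, Nakayama gives that the `w^e b_i` span `V`; they are as many as the rank, so they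
form an `𝒪`-basis (Orzech).  Folding the exponents modulo `p^n` gives `IsGroupRingBasis`.
(`hX`, `IsDomain 𝒪`, `CharZero 𝒪` are not used.)
-/

set_option autoImplicit false

namespace Fermat.Agent.S59.TW.H95

open Fermat.Agent.S59.TW Fermat.Agent.S59.TW.H959

theorem alg : AlgStatement := by
  intro p hp hp2 𝒪 _ _ _ hpJ T _ _ V _ _ r G _ m n hn dia g _hX d b hb w hw hrange
  classical
  letI : Module 𝒪 V := Module.compHom V (algebraMap 𝒪 T)
  haveI : IsScalarTower 𝒪 T V := IsScalarTower.of_algebraMap_smul fun _ _ => rfl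
  -- the `X`-basis
  set vX : Fin d × (∀ j : Fin r, Fin (p ^ m j)) → V :=
    fun x => dia (fun j => g j ^ (x.2 j : ℕ)) (b x.1) with hvX
  have hli : LinearIndependent 𝒪 vX := by
    rw [Fintype.linearIndependent_iff]
    intro c hc x
    obtain ⟨c0, -, huniq⟩ := hb 0
    have h1 : (fun i e => c (i, e)) = c0 := by
      refine huniq _ ?_
      rw [← hc, Fintype.sum_prod_type]
      rfl
    have h2 : (fun (_ : Fin d) (_ : ∀ j : Fin r, Fin (p ^ m j)) => (0 : 𝒪)) = c0 := by
      refine huniq _ ?_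
      simp
    exact congrFun (congrFun (h1.trans h2.symm) x.1) x.2
  have hsp : ⊤ ≤ Submodule.span 𝒪 (Set.range vX) := by
    intro y _
    obtain ⟨c, hc, -⟩ := hb y
    rw [hc]
    refine Submodule.sum_mem _ fun i _ => Submodule.sum_mem _ fun e _ => ?_
    exact Submodule.smul_mem _ (c i e) (Submodule.subset_span ⟨(i, e), rfl⟩)
  set BX : Module.Basis (Fin d × (∀ j : Fin r, Fin (p ^ m j))) 𝒪 V := Module.Basis.mk hli hsp
    with hBXdef
  have hBXv : ∀ x, BX x = vX x := fun x => by rw [hBXdef, Module.Basis.mk_apply]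
  -- `X^e y - y ∈ ∑ (w_j - 1) V`
  set S : Submodule 𝒪 V := ⨆ j, LinearMap.range (mulT95 𝒪 V (w j - 1)) with hS
  let Z : Submonoid (∀ j : Fin r, G j) :=
    { carrier := {h | ∀ y : V, dia h y - y ∈ S}
      one_mem' := fun y => by
        rw [map_one, Module.End.one_apply, sub_self]; exact S.zero_mem
      mul_mem' := fun {h h'} hh hh' y => by
        have : dia (h * h') y - y = (dia h (dia h' y) - dia h' y) + (dia h' y - y) := by
          rw [map_mul, Module.End.mul_apply]; abel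
        rw [this]
        exact S.add_mem (hh _) (hh' _) }
  have hZ1 : ∀ j, Pi.mulSingle j (g j) ∈ Z := by
    intro j y
    obtain ⟨y', hy'⟩ := (hrange j (dia (Pi.mulSingle j (g j)) y - y)).mpr ⟨y, rfl⟩
    rw [hy']
    refine Submodule.mem_iSup_of_mem j ⟨y', ?_⟩
    rw [mulT95_apply, sub_smul, one_smul]
  have hZ : ∀ e : (∀ j : Fin r, Fin (p ^ m j)), (fun j => g j ^ (e j : ℕ)) ∈ Z := by
    intro e
    have : (fun j => g j ^ (e j : ℕ)) = ∏ j, (Pi.mulSingle j (g j)) ^ (e j : ℕ) := by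
      rw [← Finset.univ_prod_mulSingle (fun j => g j ^ (e j : ℕ))]
      refine Finset.prod_congr rfl fun j _ => ?_
      exact map_pow (MonoidHom.mulSingle G j) (g j) _
    rw [this]
    exact Submonoid.prod_mem _ fun j _ => Submonoid.pow_mem _ (hZ1 j) _
  have hBX : ∀ x, BX x - b x.1 ∈ S := fun x => by
    rw [hBXv]
    exact hZ x.2 (b x.1)
  -- nilpotence of `w_j - 1` modulo `p`
  have hk : ∀ j, ∃ t : T, (w j - 1) ^ (p ^ m j) = algebraMap 𝒪 T (p : 𝒪) * t := by
    intro j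
    obtain ⟨t, ht⟩ := exists_sub_one_pow_eq_h95 hp hp2 (w j) (m j) (hw j)
    exact ⟨t, by rw [ht, map_natCast]⟩
  have hq : ∀ j : Fin r, 0 < p ^ m j := fun j => pow_pos hp.pos _
  obtain ⟨BW, hBW⟩ := exists_basis_w_h95 (p : 𝒪) hpJ w (fun j => p ^ m j) (fun j => p ^ m j)
    hq hw hk b BX hBX
  exact ⟨fun x => fold_exists_h95 w (fun j => p ^ m j) (p ^ n) (pow_pos hp.pos _) b BW hBW x,
    fun c hc => fold_unique_h95 w (fun j => p ^ m j) hq hw (p ^ n) (pow_pos hp.pos _)
      (fun j => pow_dvd_pow p (hn j)) b BW hBW c hc⟩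

example : AlgStatement := alg

end Fermat.Agent.S59.TW.H95
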