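import Mathlib

/-!
# S59 / cell TW / Layer 2, leaf ALG — part 1: the spanning step (helper95, Mathlib only)

`V` a `T`-module, `T` an `𝒪`-algebra, `V` finite over `𝒪`, `ϖ ∈ Jac 𝒪`.
`w_j ∈ T` with `(w_j - 1)^(k_j) ∈ ϖ T`.  If an `𝒪`-submodule `W₀` of `V` is stable under the `w_j`
and `V = W₀ + ∑_j (w_j - 1) V`, then `W₀ = V`.

Proof: `V = W₀ + U_n` for all `n`, where `U_n` is spanned by the `∏ (w_j - 1)^(a_j) v`, `∑ a = n`;
for `n > ∑ k_j` we have `U_n ⊆ ϖ V`; Nakayama over `𝒪`.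
-/

set_option autoImplicit false

namespace Fermat.Agent.S59.TW.H95

open Finset

section Pow

variable {T : Type*} [CommRing T]

/-- `(w - 1)^(p^m) ∈ p T` if `w^(p^m) = 1`, `p` an odd prime. -/
theorem exists_sub_one_pow_eq_h95 {p : ℕ} (hp : p.Prime) (hp2 : p ≠ 2) (w : T) (m : ℕ)
    (hw : w ^ p ^ m = 1) : ∃ t : T, (w - 1) ^ p ^ m = (p : T) * t := by
  obtain ⟨r, hr⟩ := exists_add_pow_prime_pow_eq hp w (-1) m
  have hodd : Odd (p ^ m) := (hp.odd_of_ne_two hp2).pow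
  refine ⟨-(w * r), ?_⟩
  rw [sub_eq_add_neg, hr, hw, hodd.neg_one_pow]
  ring

end Pow

section Span

variable {𝒪 T V : Type*} [CommRing 𝒪] [CommRing T] [Algebra 𝒪 T]
  [AddCommGroup V] [Module T V] [Module 𝒪 V] [IsScalarTower 𝒪 T V]

/-- multiplication by `t : T` as an `𝒪`-linear endomorphism of `V` -/
def mulT95 (𝒪 : Type*) {T : Type*} (V : Type*) [CommRing 𝒪] [CommRing T] [Algebra 𝒪 T]
    [AddCommGroup V] [Module T V] [Module 𝒪 V] [IsScalarTower 𝒪 T V] (t : T) : V →ₗ[𝒪] V :=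
  (LinearMap.lsmul T V t).restrictScalars 𝒪

@[simp] theorem mulT95_apply (t : T) (v : V) : mulT95 𝒪 V t v = t • v := rfl

/-- the elements of `T` which stabilise a given `𝒪`-submodule form a subalgebra -/
def stab95 (W : Submodule 𝒪 V) : Subalgebra 𝒪 T where
  carrier := {t | ∀ v ∈ W, t • v ∈ W}
  mul_mem' := fun {a b} ha hb v hv => by
    rw [mul_smul]; exact ha _ (hb v hv)
  one_mem' := fun v hv => by rw [one_smul]; exact hv
  add_mem' := fun {a b} ha hb v hv => by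
    rw [add_smul]; exact W.add_mem (ha v hv) (hb v hv)
  zero_mem' := fun v _ => by rw [zero_smul]; exact W.zero_mem
  algebraMap_mem' := fun c v hv => by
    rw [algebraMap_smul]; exact W.smul_mem c hv

theorem mem_stab95 {W : Submodule 𝒪 V} {t : T} : t ∈ stab95 (T := T) W ↔ ∀ v ∈ W, t • v ∈ W :=
  Iff.rfl

variable {r : ℕ}

/-- the filtration `U_n` -/
def filt95 (𝒪 : Type*) {T : Type*} (V : Type*) [CommRing 𝒪] [CommRing T] [Algebra 𝒪 T]
    [AddCommGroup V] [Module T V] [Module 𝒪 V] [IsScalarTower 𝒪 T V] {r : ℕ}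
    (x : Fin r → T) (n : ℕ) : Submodule 𝒪 V :=
  Submodule.span 𝒪 {y | ∃ (a : Fin r → ℕ) (v : V), ∑ j, a j = n ∧ y = (∏ j, x j ^ a j) • v}

theorem filt95_zero (x : Fin r → T) : filt95 𝒪 V x 0 = ⊤ := by
  rw [eq_top_iff]
  intro v _
  refine Submodule.subset_span ⟨fun _ => 0, v, by simp, by simp⟩

theorem smul_mem_filt95_succ (x : Fin r → T) (n : ℕ) (a : Fin r → ℕ) (ha : ∑ j, a j = n)
    (j : Fin r) (u : V) : (∏ i, x i ^ a i) • (x j • u) ∈ filt95 𝒪 V x (n + 1) := by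
  refine Submodule.subset_span ⟨a + Pi.single j 1, u, ?_, ?_⟩
  · simp [Finset.sum_add_distrib, ha]
  · rw [← mul_smul]
    congr 1
    have : ∀ i, x i ^ ((a + Pi.single j 1 : Fin r → ℕ) i) =
        x i ^ a i * x i ^ (Pi.single j 1 : Fin r → ℕ) i := by
      intro i; rw [Pi.add_apply, pow_add]
    simp_rw [this, Finset.prod_mul_distrib]
    congr 1
    rw [Finset.prod_eq_single j]
    · simp
    · intro i _ hij; simp [Pi.single_apply, hij]
    · intro h; exact absurd (Finset.mem_univ j) h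

/-- **The spanning step.** -/
theorem eq_top_of_stable_h95 [Module.Finite 𝒪 V] (ϖ : 𝒪) (hϖ : ϖ ∈ Ideal.jacobson (⊥ : Ideal 𝒪))
    (w : Fin r → T) (k : Fin r → ℕ)
    (hk : ∀ j, ∃ t : T, (w j - 1) ^ k j = algebraMap 𝒪 T ϖ * t)
    (W₀ : Submodule 𝒪 V) (hstab : ∀ j, ∀ v ∈ W₀, w j • v ∈ W₀)
    (hgen : ⊤ ≤ W₀ ⊔ ⨆ j, LinearMap.range (mulT95 𝒪 V (w j - 1))) :
    W₀ = ⊤ := by
  classical
  set x : Fin r → T := fun j => w j - 1 with hx
  -- `x^a` stabilises `W₀`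
  have hxstab : ∀ a : Fin r → ℕ, ∀ v ∈ W₀, (∏ j, x j ^ a j) • v ∈ W₀ := by
    intro a
    have : (∏ j, x j ^ a j) ∈ stab95 (T := T) W₀ := by
      refine Subalgebra.prod_mem _ (fun j _ => Subalgebra.pow_mem _ ?_ _)
      exact Subalgebra.sub_mem _ (hstab j) (Subalgebra.one_mem _)
    exact this
  -- step: `U_n ≤ W₀ ⊔ U_{n+1}`
  have hstep : ∀ n, filt95 𝒪 V x n ≤ W₀ ⊔ filt95 𝒪 V x (n + 1) := by
    intro n
    refine Submodule.span_le.mpr ?_
    rintro y ⟨a, v, ha, rfl⟩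
    have hv : v ∈ W₀ ⊔ ⨆ j, LinearMap.range (mulT95 𝒪 V (w j - 1)) := hgen Submodule.mem_top
    obtain ⟨ω, hω, s, hs, rfl⟩ := Submodule.mem_sup.mp hv
    rw [smul_add]
    refine Submodule.add_mem _ (Submodule.mem_sup_left (hxstab a ω hω)) (Submodule.mem_sup_right ?_)
    -- `x^a • s ∈ U_{n+1}` for `s ∈ ∑ range (x_j)`
    refine Submodule.iSup_induction (p := fun j => LinearMap.range (mulT95 𝒪 V (w j - 1)))
      (motive := fun s => (∏ j, x j ^ a j) • s ∈ filt95 𝒪 V x (n + 1)) hs ?_ ?_ ?_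
    · rintro j _ ⟨u, rfl⟩
      exact smul_mem_filt95_succ x n a ha j u
    · rw [smul_zero]; exact Submodule.zero_mem _
    · intro s₁ s₂ h₁ h₂
      rw [smul_add]; exact Submodule.add_mem _ h₁ h₂
  have hall : ∀ n, ⊤ ≤ W₀ ⊔ filt95 𝒪 V x n := by
    intro n
    induction n with
    | zero => rw [filt95_zero]; exact le_sup_right
    | succ n ih =>
      refine ih.trans (sup_le le_sup_left (hstep n))
  -- `U_N ≤ ϖ V`
  have hN : filt95 𝒪 V x (∑ j, k j + 1) ≤ Ideal.span {ϖ} • (⊤ : Submodule 𝒪 V) := by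
    refine Submodule.span_le.mpr ?_
    rintro y ⟨a, v, ha, rfl⟩
    obtain ⟨j, -, hj⟩ : ∃ j ∈ (Finset.univ : Finset (Fin r)), k j < a j := by
      refine Finset.exists_lt_of_sum_lt ?_
      rw [ha]; exact Nat.lt_succ_self _
    obtain ⟨t, ht⟩ := hk j
    have hdvd : x j ^ k j ∣ ∏ i, x i ^ a i :=
      (pow_dvd_pow _ hj.le).trans (Finset.dvd_prod_of_mem _ (Finset.mem_univ j))
    obtain ⟨t', ht'⟩ := hdvd
    have : (∏ i, x i ^ a i) • v = ϖ • ((t * t') • v) := by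
      rw [ht', show x j ^ k j = algebraMap 𝒪 T ϖ * t from ht, mul_assoc, mul_smul,
        algebraMap_smul]
    rw [SetLike.mem_coe, this]
    exact Submodule.smul_mem_smul (Ideal.mem_span_singleton_self ϖ) Submodule.mem_top
  -- Nakayama
  have hfg : (⊤ : Submodule 𝒪 V).FG := Module.Finite.fg_top
  have hJ : Ideal.span {ϖ} ≤ Ideal.jacobson (⊥ : Ideal 𝒪) :=
    (Ideal.span_singleton_le_iff_mem _).mpr hϖ
  have := Submodule.le_of_le_smul_of_le_jacobson_bot (N := W₀) hfg hJ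
    ((hall _).trans (sup_le_sup_left hN _))
  exact eq_top_iff.mpr this

end Span

end Fermat.Agent.S59.TW.H95
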